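/-
S37 [CONJ] (helper97): the degrees of the two degeneracy maps `α, β : F_N → F_{Nℓ}` of the Prelude
(`ℓ` prime, `ℓ ∤ N`):  `[F_{Nℓ} : α F_N] = [F_{Nℓ} : β F_N] = ℓ + 1`.

`α`: tower law over `Q̄(j)` with `[F_M : Q̄(j)] = ψ(M)` (S18/FibreCount) at `M = N` and `M = N ℓ`.
`β`: transport by the Atkin–Lehner involution (`Kron/AtkinLehner.lean`, helper60), `w ∘ α = β`.
-/
import Mathlib
import Fermat.Prelude.Def_ModularCurve_HeckeOperator
import Fermat.Agent.S18.FibreCount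
import Fermat.Agent.Lib.Gamma0Count
import Fermat.Agent.S37.Kron.AtkinLehner

set_option autoImplicit false

noncomputable section

namespace Fermat.Agent.S37.Conj

open ModularCurve AlgebraicCurve IntermediateField
open Fermat.Agent.S24

section Generic

variable {K F F' : Type*} [Field K] [Field F] [Field F'] [Algebra K F] [Algebra K F']

/-- Tower law along `φ`, with the bottom field `K(x)` transported by `φ`. -/
theorem finrank_mul_finrankAlong (φ : F →ₐ[K] F') (x : F) :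
    Module.finrank K⟮x⟯ F * finrankAlong K φ = Module.finrank K⟮φ x⟯ F' := by
  letI := algebraAlong φ
  haveI := isScalarTower_along φ
  have h1 := Module.finrank_mul_finrank K⟮x⟯ F F'
  have h2 : Module.finrank K⟮x⟯ F' = Module.finrank K⟮φ x⟯ F' := by
    have hmap : (K⟮x⟯).map φ = K⟮φ x⟯ := by
      rw [IntermediateField.adjoin_map, Set.image_singleton]
    let i : K⟮x⟯ ≃+* K⟮φ x⟯ :=
      ((IntermediateField.equivMap K⟮x⟯ φ).trans (IntermediateField.equivOfEq hmap)).toRingEquiv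
    refine Algebra.finrank_eq_of_equiv_equiv i (RingEquiv.refl F') ?_
    ext e
    rfl
  rw [← h2, ← h1]
  rfl

/-- Two embeddings that differ by an automorphism of the target have the same degree. -/
theorem finrankAlong_eq_of_equiv (φ ψ : F →ₐ[K] F') (w : F' ≃+* F') (h : ∀ x, w (φ x) = ψ x) :
    finrankAlong K φ = finrankAlong K ψ := by
  refine @Algebra.finrank_eq_of_equiv_equiv F F' _ _ (algebraAlong φ) F F' _ _ (algebraAlong ψ)
    (RingEquiv.refl F) w ?_
  ext x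
  exact (h x).symm

end Generic

section Modular

variable (N ℓ : ℕ) [NeZero N] [NeZero ℓ]

theorem alpha_jBar : heckeAlphaBar Kbar N ℓ (jBar N) = jBar (N * ℓ) := Subtype.ext rfl

/-- `[F_{Nℓ} : α F_N] = ℓ + 1`. -/
theorem finrankAlong_alpha (hℓ : ℓ.Prime) (hℓN : ¬ ℓ ∣ N) :
    finrankAlong Kbar (heckeAlphaBar Kbar N ℓ) = ℓ + 1 := by
  have h := finrank_mul_finrankAlong (heckeAlphaBar Kbar N ℓ) (jBar N)
  have hψ : dedekindPsi (N * ℓ) = (ℓ + 1) * dedekindPsi N := by
    rw [mul_comm N ℓ]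
    exact Fermat.Agent.Lib.Gamma0Count.dedekindPsi_mul_of_not_dvd hℓ (NeZero.ne N) hℓN
  rw [alpha_jBar, Fermat.Agent.S18.FibreCount.finrank_eq N,
    Fermat.Agent.S18.FibreCount.finrank_eq (N * ℓ), hψ] at h
  have hpos := Fermat.Agent.S18.FibreCount.dedekindPsi_pos N
  have h' : dedekindPsi N * finrankAlong Kbar (heckeAlphaBar Kbar N ℓ) =
      dedekindPsi N * (ℓ + 1) := by
    rw [h]; ring
  exact Nat.eq_of_mul_eq_mul_left hpos h'

/-- `[F_{Nℓ} : β F_N] = ℓ + 1`. -/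
theorem finrankAlong_beta (hℓ : ℓ.Prime) (hℓN : ¬ ℓ ∣ N) :
    finrankAlong Kbar (heckeBetaBar Kbar N ℓ) = ℓ + 1 := by
  obtain ⟨w, hwα, -⟩ := Fermat.Agent.S37.Kron.AtkinLehner.exists_atkinLehner N ℓ
    (Nat.coprime_comm.mp ((Nat.Prime.coprime_iff_not_dvd hℓ).mpr hℓN))
  rw [← finrankAlong_eq_of_equiv (heckeAlphaBar Kbar N ℓ) (heckeBetaBar Kbar N ℓ)
    (w : FN (N * ℓ) ≃+* FN (N * ℓ)) hwα]
  exact finrankAlong_alpha N ℓ hℓ hℓN

end Modular

end Fermat.Agent.S37.Conj
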