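/-
S37 [CONJ] (helper97), generic field theory: if a finite separable extension `L / K` of degree `n`
has `n` pairwise distinct `K`-embeddings `σ i` into a field `Ω` (not necessarily algebraically
closed), then norms and characteristic polynomials are the products over the `σ i`.
-/
import Mathlib

set_option autoImplicit false

noncomputable section

namespace Fermat.Agent.S37.Conj

open Polynomial

variable {K L Ω ι : Type*} [Field K] [Field L] [Field Ω] [Algebra K L] [Algebra K Ω]
  [FiniteDimensional K L] [Algebra.IsSeparable K L] [Fintype ι]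

/-- `n = [L : K]` distinct embeddings into `Ω` are all the embeddings into an algebraic closure
of `Ω`. -/
theorem bijective_comp_of_card (σ : ι → (L →ₐ[K] Ω)) (hσ : Function.Injective σ)
    (hcard : Fintype.card ι = Module.finrank K L) :
    Function.Bijective
      (fun i => (IsScalarTower.toAlgHom K Ω (AlgebraicClosure Ω)).comp (σ i)) := by
  rw [Fintype.bijective_iff_injective_and_card]
  refine ⟨fun i j hij => hσ ?_, ?_⟩
  · apply AlgHom.ext
    intro y
    have h := congrArg (fun f : L →ₐ[K] AlgebraicClosure Ω => f y) hij
    exact (algebraMap Ω (AlgebraicClosure Ω)).injective h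
  · rw [hcard, AlgHom.card]

theorem norm_eq_prod_of_card (σ : ι → (L →ₐ[K] Ω)) (hσ : Function.Injective σ)
    (hcard : Fintype.card ι = Module.finrank K L) (y : L) :
    algebraMap K Ω (Algebra.norm K y) = ∏ i, σ i y := by
  apply (algebraMap Ω (AlgebraicClosure Ω)).injective
  rw [← IsScalarTower.algebraMap_apply, Algebra.norm_eq_prod_embeddings K (AlgebraicClosure Ω) y,
    map_prod]
  let e := Equiv.ofBijective _ (bijective_comp_of_card σ hσ hcard)
  rw [← e.prod_comp]
  rfl

/-- The characteristic polynomial of multiplication by `y`, over `Ω`, is `∏ (X - σ i y)`. -/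
theorem charpoly_map_eq_prod_of_card (σ : ι → (L →ₐ[K] Ω)) (hσ : Function.Injective σ)
    (hcard : Fintype.card ι = Module.finrank K L) [Infinite K] (y : L) :
    (LinearMap.charpoly (Algebra.lmul K L y)).map (algebraMap K Ω) = ∏ i, (X - C (σ i y)) := by
  apply Polynomial.eq_of_infinite_eval_eq
  apply Set.infinite_of_injective_forall_mem (f := algebraMap K Ω) (algebraMap K Ω).injective
  intro t
  show ((LinearMap.charpoly (Algebra.lmul K L y)).map (algebraMap K Ω)).eval (algebraMap K Ω t)
    = (∏ i, (X - C (σ i y))).eval (algebraMap K Ω t)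
  rw [eval_map, eval₂_at_apply, LinearMap.eval_charpoly, eval_prod]
  have h1 : (algebraMap K (Module.End K L) t - Algebra.lmul K L y)
      = Algebra.lmul K L (algebraMap K L t - y) := by
    ext z
    simp [Algebra.smul_def]
  rw [h1, ← Algebra.norm_apply, norm_eq_prod_of_card σ hσ hcard]
  refine Finset.prod_congr rfl fun i _ => ?_
  simp

/-! ### Ring-hom forms (no `Algebra K Ω` instance needed at the use site) -/

section RingHomForm

variable {K L Ω ι : Type*} [Field K] [Field L] [Field Ω] [Algebra K L]
  [FiniteDimensional K L] [Algebra.IsSeparable K L] [Fintype ι]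

/-- `φ (N_{L/K} y) = ∏ σ i y` for `n = [L : K]` distinct ring embeddings `σ i : L →+* Ω` that all
restrict to `φ` on `K`. -/
theorem map_norm_eq_prod_of_card (φ : K →+* Ω) (σ : ι → (L →+* Ω))
    (hφ : ∀ i x, σ i (algebraMap K L x) = φ x) (hσ : Function.Injective σ)
    (hcard : Fintype.card ι = Module.finrank K L) (y : L) :
    φ (Algebra.norm K y) = ∏ i, σ i y := by
  letI : Algebra K Ω := φ.toAlgebra
  let σ' : ι → (L →ₐ[K] Ω) := fun i => { σ i with commutes' := fun x => hφ i x }
  have hσ' : Function.Injective σ' := by
    intro i j hij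
    apply hσ
    ext z
    exact congrArg (fun f : L →ₐ[K] Ω => f z) hij
  exact norm_eq_prod_of_card σ' hσ' hcard y

/-- The characteristic polynomial of multiplication by `y` on `L / K`, mapped through `φ`, is
`∏ (X - σ i y)` for `n = [L : K]` distinct ring embeddings `σ i : L →+* Ω` restricting to `φ`. -/
theorem charpoly_mulLeft_map_eq_prod_of_card [Infinite K] (φ : K →+* Ω) (σ : ι → (L →+* Ω))
    (hφ : ∀ i x, σ i (algebraMap K L x) = φ x) (hσ : Function.Injective σ)
    (hcard : Fintype.card ι = Module.finrank K L) (y : L) :
    (LinearMap.charpoly (LinearMap.mulLeft K y)).map φ = ∏ i, (X - C (σ i y)) := by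
  letI : Algebra K Ω := φ.toAlgebra
  let σ' : ι → (L →ₐ[K] Ω) := fun i => { σ i with commutes' := fun x => hφ i x }
  have hσ' : Function.Injective σ' := by
    intro i j hij
    apply hσ
    ext z
    exact congrArg (fun f : L →ₐ[K] Ω => f z) hij
  exact charpoly_map_eq_prod_of_card σ' hσ' hcard y

end RingHomForm

end Fermat.Agent.S37.Conj
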