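/-
S37 / P5 [G1'] (helper97): **the Kronecker congruence for the norm `Norm_α (β u)`.**

The Prelude's Hecke correspondence is `T_ℓ = α_* β^*`, so `T_ℓ (div u) = div (Norm_α (β u))`
(norm along `α` of `β u`), while `Plan2.Kron` is typed for `α u` over `β F_N`.  The Atkin–Lehner
involution `w` (`w ∘ α = β`, `w ∘ β = α`) identifies the two norms:

* `norm_alpha_beta_eq` : `Norm_α (β y) = Norm_β (α y)` in `F_N`;
* `red_norm_alpha_beta`: for `u ∈ F_N ∩ Ocal`, `Norm_α (β u) ∈ Ocal` and its reduction is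
  `ū(q^ℓ) · ū^{(ℓ)}(q)` (`ū^{(ℓ)}` = coefficientwise Frobenius of `ū`).
-/
import Mathlib
import Fermat.Agent.S37.KronFinal
import Fermat.Agent.S37.Kron.AtkinLehner
import Fermat.Agent.S37.Conj.Degree
import Fermat.Agent.S18.ContentMain

set_option autoImplicit false

noncomputable section

namespace Fermat.Agent.S37.Conj

open ModularCurve AlgebraicCurve Polynomial
open Fermat.Agent.S24 Fermat.Agent.S18.Content Fermat.Agent.S18.Plan

section Generic

variable {K F F' : Type*} [Field K] [Field F] [Field F'] [Algebra K F] [Algebra K F']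

/-- Two embeddings that differ by an automorphism `w` of the target have the same norm, up to
`w`. -/
theorem norm_along_eq_of_equiv (φ ψ : F →ₐ[K] F') (w : F' ≃+* F') (h : ∀ x, w (φ x) = ψ x)
    (z : F') :
    @Algebra.norm F F' _ _ (algebraAlong φ) z = @Algebra.norm F F' _ _ (algebraAlong ψ) (w z) := by
  have h1 := @Algebra.norm_eq_of_equiv_equiv F F' F F' _ _ _ _ (algebraAlong φ) (algebraAlong ψ)
    (RingEquiv.refl F) w (by
      ext x
      exact (h x).symm) z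
  exact h1

end Generic

section Modular

variable (N ℓ : ℕ) [NeZero N] [NeZero ℓ]

/-- **Atkin–Lehner symmetry of the norms**: `Norm_α (β y) = Norm_β (α y)`. -/
theorem norm_alpha_beta_eq (h : Nat.Coprime N ℓ) (y : FN N) :
    @Algebra.norm (FN N) (FN (N * ℓ)) _ _ (algebraAlong (heckeAlphaBar Kbar N ℓ))
        (heckeBetaBar Kbar N ℓ y) =
      @Algebra.norm (FN N) (FN (N * ℓ)) _ _ (algebraAlong (heckeBetaBar Kbar N ℓ))
        (heckeAlphaBar Kbar N ℓ y) := by
  obtain ⟨w, hwα, hwβ⟩ := Fermat.Agent.S37.Kron.AtkinLehner.exists_atkinLehner N ℓ h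
  have h1 := norm_along_eq_of_equiv (heckeAlphaBar Kbar N ℓ) (heckeBetaBar Kbar N ℓ)
    w.toRingEquiv (fun x => hwα x) (heckeBetaBar Kbar N ℓ y)
  rw [h1]
  congr 1
  exact hwβ y

/-- **Kronecker's congruence for `Norm_α (β u)`**: for `u ∈ F_N ∩ Ocal`, the norm along `α` of
`β u` lies in `Ocal` and reduces to `ū(q^ℓ) · ū^{(ℓ)}(q)`. -/
theorem red_norm_alpha_beta (A : ValuationSubring Kbar) (hℓ : ℓ.Prime) (hℓN : ¬ ℓ ∣ N)
    (hA : A.LiesOverPrime ℓ) (τ : kk A ≃+* kk A) (hτ : ∀ x, τ x = x ^ ℓ)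
    (u : FN N) (hu : (u : Om) ∈ Ocal A) :
    ∃ hc : ((@Algebra.norm (FN N) (FN (N * ℓ)) _ _ (algebraAlong (heckeAlphaBar Kbar N ℓ))
        (heckeBetaBar Kbar N ℓ u) : FN N) : Om) ∈ Ocal A,
      red A ⟨_, hc⟩ =
        qExpand (kk A) ℓ (red A ⟨(u : Om), hu⟩) *
          coeffMap (τ : kk A →+* kk A) (red A ⟨(u : Om), hu⟩) := by
  haveI : Fact ℓ.Prime := ⟨hℓ⟩
  haveI : CharP (kk A) ℓ := charP_residueField_of_liesOverPrime A ℓ hA
  have hcop : Nat.Coprime N ℓ := ((Nat.Prime.coprime_iff_not_dvd hℓ).mpr hℓN).symm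
  rw [show @Algebra.norm (FN N) (FN (N * ℓ)) _ _ (algebraAlong (heckeAlphaBar Kbar N ℓ))
        (heckeBetaBar Kbar N ℓ u) =
      @Algebra.norm (FN N) (FN (N * ℓ)) _ _ (algebraAlong (heckeBetaBar Kbar N ℓ))
        (heckeAlphaBar Kbar N ℓ u) from norm_alpha_beta_eq N ℓ hcop u]
  have hfr : finrankAlong Kbar (heckeBetaBar Kbar N ℓ) = ℓ + 1 := finrankAlong_beta N ℓ hℓ hℓN
  have hfin : FiniteAlong Kbar (heckeBetaBar Kbar N ℓ) := by
    letI := algebraAlong (heckeBetaBar Kbar N ℓ)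
    have h1 : Module.finrank (FN N) (FN (N * ℓ)) = ℓ + 1 := hfr
    exact Module.finite_of_finrank_pos (by rw [h1]; omega)
  have hkron := Fermat.Agent.S37.KronMain.kron A N ℓ hℓ hℓN hA hfin τ hτ u hu 0
  letI := algebraAlong (heckeBetaBar Kbar N ℓ)
  haveI : Module.Finite (FN N) (FN (N * ℓ)) := hfin
  obtain ⟨hc0, hred0⟩ := hkron
  have hnorm : Algebra.norm (FN N) (heckeAlphaBar Kbar N ℓ u) =
      (-1) ^ (ℓ + 1) * (LinearMap.charpoly
        (LinearMap.mulLeft (FN N) (heckeAlphaBar Kbar N ℓ u))).coeff 0 := by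
    have h1 : Module.finrank (FN N) (FN (N * ℓ)) = ℓ + 1 := hfr
    rw [Algebra.norm_apply, LinearMap.det_eq_sign_charpoly_coeff, h1]
    rfl
  have hcoe : ((Algebra.norm (FN N) (heckeAlphaBar Kbar N ℓ u) : FN N) : Om) =
      (-1) ^ (ℓ + 1) * (((LinearMap.charpoly
        (LinearMap.mulLeft (FN N) (heckeAlphaBar Kbar N ℓ u))).coeff 0 : FN N) : Om) := by
    rw [hnorm]
    push_cast
    rfl
  have hsign : ((-1 : Omk A) ^ (ℓ + 1)) = 1 := by
    rcases hℓ.eq_two_or_odd' with h2 | hodd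
    · subst h2
      have h2 : (2 : Omk A) = 0 := by
        have h : ((2 : ℕ) : kk A) = 0 := CharP.cast_eq_zero (kk A) 2
        have h' : algebraMap (kk A) (Omk A) ((2 : ℕ) : kk A) = 0 := by rw [h, map_zero]
        rw [map_natCast] at h'
        exact_mod_cast h'
      have h11 : (-1 : Omk A) = 1 := by
        rw [neg_eq_iff_add_eq_zero, one_add_one_eq_two]
        exact h2
      rw [h11, one_pow]
    · exact Even.neg_one_pow (Odd.add_one hodd)
  have hmem : (-1 : Om) ^ (ℓ + 1) * (((LinearMap.charpoly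
        (LinearMap.mulLeft (FN N) (heckeAlphaBar Kbar N ℓ u))).coeff 0 : FN N) : Om) ∈ Ocal A :=
    (Ocal A).mul_mem ((Ocal A).pow_mem ((Ocal A).neg_mem (Ocal A).one_mem) _) hc0
  refine ⟨hcoe ▸ hmem, ?_⟩
  rw [red_congr A hcoe (hcoe ▸ hmem) hmem]
  have hprod : (⟨_, hmem⟩ : Ocal A) =
      (-1 : Ocal A) ^ (ℓ + 1) * ⟨_, hc0⟩ := by
    apply Subtype.ext
    push_cast
    rfl
  rw [hprod, map_mul, map_pow, map_neg, map_one, hsign, one_mul, hred0, mul_coeff_zero]
  have hℓ0 : ¬ (0 = ℓ) := fun h => hℓ.ne_zero h.symm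
  simp [hℓ0]

end Modular

end Fermat.Agent.S37.Conj
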